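/-
S32 producer link (L1) (helper246): twin of `S30/BettiLimit.nonempty_esData` which also returns
the LINK between the matrices of the `ESData` and the Galois action on `Hom(A, ℤ/pⁿ)`:

  `j n : (ℤ/pⁿ)^r →+ Hom(A, ℤ/pⁿ)`, `v ↦ ∑ v_j ē_j`, is injective and intertwines
  `mulVec` by `D.ρ σ` modulo `pⁿ` with `act n σ`.

The assembly proof is the one of `BettiLimit.nonempty_esData` (helper162), verbatim, with the
extra conclusion; all lemmas are cited from `S30/BettiLimit`.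
-/
import Mathlib
import Fermat.Agent.S30.Defs
import Fermat.Agent.S30.BettiLimit

set_option autoImplicit false
set_option linter.unusedSectionVars false

namespace Fermat.Agent.S32.Link

open Fermat.Agent.S30 Fermat.Agent.S30.BettiLimit Module Matrix

section LinkLemma

variable {p : ℕ} [hp : Fact p.Prime] {A : Type} [AddCommGroup A] {r : ℕ}
  (a : Fin r → A) (e : Fin r → (A →+ ℤ))
  (act : ∀ n : ℕ, GQ →* AddMonoid.End (A →+ ZMod (p ^ n)))

/-- The map `v ↦ ∑ v_j ē_j` from coordinate vectors to `Hom(A, ℤ/pⁿ)`. -/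
def jn (n : ℕ) : (Fin r → ZMod (p ^ n)) →+ (A →+ ZMod (p ^ n)) where
  toFun v :=
    { toFun := fun x => ∑ j, v j * ((e j x : ℤ) : ZMod (p ^ n))
      map_zero' := by simp
      map_add' := fun x y => by simp [mul_add, Finset.sum_add_distrib] }
  map_zero' := by
    ext x
    simp
  map_add' v w := by
    ext x
    simp [add_mul, Finset.sum_add_distrib]

theorem jn_apply (n : ℕ) (v : Fin r → ZMod (p ^ n)) (x : A) :
    jn e n v x = ∑ j, v j * ((e j x : ℤ) : ZMod (p ^ n)) := rfl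

theorem jn_eq_sum (n : ℕ) (v : Fin r → ZMod (p ^ n)) :
    jn e n v = ∑ j, (v j).val • ebar e p n j := by
  have : NeZero (p ^ n) := ⟨pow_ne_zero n hp.out.ne_zero⟩
  ext x
  rw [jn_apply, AddMonoidHom.finsetSum_apply]
  refine Finset.sum_congr rfl fun j _ => ?_
  rw [AddMonoidHom.nsmul_apply, nsmul_eq_mul, ZMod.natCast_zmod_val, ebar_apply]

theorem jn_injective (he : ∀ i j, e j (a i) = if i = j then 1 else 0) (n : ℕ) :
    Function.Injective (jn (p := p) e n) := by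
  classical
  intro v w h
  funext i
  have h1 := DFunLike.congr_fun h (a i)
  simp only [jn_apply, he] at h1
  simpa using h1

theorem jn_act
    (hexp : ∀ (M : Type) [AddCommGroup M] [Module.IsTorsionFree ℤ M] (c : A →+ M) (x : A),
      c x = ∑ i, e i x • c (a i))
    (act_red : ∀ (n : ℕ) (σ : GQ) (c : A →+ ZMod (p ^ (n + 1))),
      act n σ (red A p n c) = red A p n (act (n + 1) σ c))
    (n : ℕ) (σ : GQ) (v : Fin r → ZMod (p ^ n)) :
    jn e n (rhoN a e act n σ *ᵥ v) = act n σ (jn e n v) := by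
  have : NeZero (p ^ n) := ⟨pow_ne_zero n hp.out.ne_zero⟩
  rw [jn_eq_sum e n v, map_sum]
  ext x
  rw [jn_apply, AddMonoidHom.finsetSum_apply]
  have h1 : ∀ j, (act n σ ((v j).val • ebar e p n j)) x =
      v j * ∑ i, ((e i x : ℤ) : ZMod (p ^ n)) * rhoN a e act n σ i j := by
    intro j
    rw [map_nsmul, AddMonoidHom.nsmul_apply, act_ebar_apply a e act hexp act_red, nsmul_eq_mul,
      ZMod.natCast_zmod_val]
  simp only [h1, Matrix.mulVec, dotProduct, Finset.sum_mul, Finset.mul_sum]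
  rw [Finset.sum_comm]
  refine Finset.sum_congr rfl fun j _ => Finset.sum_congr rfl fun i _ => ?_
  ring

end LinkLemma

section Assembly

variable {N p : ℕ} [NeZero N] [hp : Fact p.Prime]

/-- **(L1)** The torsion-robust assembly of `S30/BettiLimit`, returning in addition the link
between the matrices of the `ESData` modulo `pⁿ` and the action on `Hom(A, ℤ/pⁿ)`. -/
theorem exists_esData_link (A : Type) [AddCommGroup A] (hA : AddGroup.FG A)
    (τ : ℕ → A →+ A)
    (hτ : ∀ ℓ ℓ' : ℕ, ℓ.Prime → ¬ ℓ ∣ N → ℓ ≠ p → ℓ'.Prime → ¬ ℓ' ∣ N → ℓ' ≠ p →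
      ∀ c : A →+ ℤ, (c.comp (τ ℓ)).comp (τ ℓ') = (c.comp (τ ℓ')).comp (τ ℓ))
    (act : ∀ n : ℕ, GQ →* AddMonoid.End (A →+ ZMod (p ^ n)))
    (act_red : ∀ (n : ℕ) (σ : GQ) (c : A →+ ZMod (p ^ (n + 1))),
      act n σ (red A p n c) = red A p n (act (n + 1) σ c))
    (act_τ : ∀ (n : ℕ) (σ : GQ) (ℓ : ℕ), ℓ.Prime → ¬ ℓ ∣ N → ℓ ≠ p →
      ∀ c : A →+ ZMod (p ^ n), act n σ (c.comp (τ ℓ)) = (act n σ c).comp (τ ℓ))
    (cont : ∀ n : ℕ, ∃ L : IntermediateField ℚ (AlgebraicClosure ℚ), FiniteDimensional ℚ L ∧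
      ∀ σ : GQ, (∀ x ∈ L, σ x = x) → act n σ = 1)
    (unr : ∀ (n : ℕ) (q : ℕ), q.Prime → ¬ q ∣ N → q ≠ p →
      ∀ P : ValuationSubring (AlgebraicClosure ℚ), P.LiesOverPrime q →
        ∀ σ ∈ P.inertiaSubgroupIn ℚ, act n σ = 1)
    (es : ∀ (n : ℕ) (ℓ : ℕ), ℓ.Prime → ¬ ℓ ∣ N → ℓ ≠ p →
      ∀ A' : ValuationSubring (AlgebraicClosure ℚ), A'.LiesOverPrime ℓ →
        ∀ σ : GQ, A'.IsFrobeniusAt σ ℓ →
          ∀ c : A →+ ZMod (p ^ n), act n σ (act n σ c) - (act n σ c).comp (τ ℓ) + ℓ • c = 0)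
    (occ : ∃ P : CuspForm (CongruenceSubgroup.Gamma0 N) 2 →ₗ[ℂ] (A → ℂ),
      (∀ f a b, P f (a + b) = P f a + P f b) ∧ Function.Injective P ∧
        ∀ (ℓ : ℕ) (hℓ : ℓ.Prime) (hℓN : ¬ ℓ ∣ N), ℓ ≠ p →
          ∀ f a, P (CuspForm.heckeTLin 2 hℓ hℓN f) a = P f (τ ℓ a)) :
    ∃ D : ESData N p, ∀ n : ℕ, ∃ j : (Fin D.r → ZMod (p ^ n)) →+ (A →+ ZMod (p ^ n)),
      Function.Injective j ∧ ∀ (σ : GQ) (v : Fin D.r → ZMod (p ^ n)),
        j ((D.ρ σ).map (PadicInt.toZModPow n) *ᵥ v) = act n σ (j v) := by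
  classical
  obtain ⟨r, a, e, he, hexp⟩ := exists_coords A hA
  -- the limit matrices
  have hex : ∀ (σ : GQ) (i j : Fin r), ∃ y : ℤ_[p],
      ∀ n, PadicInt.toZModPow n y = rhoN a e act n σ i j :=
    fun σ i j => exists_limit (fun n => rhoN a e act n σ i j) (rhoN_compat a e act act_red σ i j)
  choose ρ hρ using hex
  have hmap : ∀ (σ : GQ) (n : ℕ),
      (PadicInt.toZModPow n).mapMatrix (Matrix.of (ρ σ)) = rhoN a e act n σ := by
    intro σ n
    ext i j
    exact hρ σ i j n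
  let ρh : GQ →* Matrix (Fin r) (Fin r) ℤ_[p] :=
    { toFun := fun σ => Matrix.of (ρ σ)
      map_one' := by
        refine padic_matrix_ext fun n => ?_
        rw [hmap, rhoN_one a e act he, map_one]
      map_mul' := by
        intro σ τ'
        refine padic_matrix_ext fun n => ?_
        rw [map_mul, hmap, hmap, hmap, rhoN_mul a e act hexp act_red] }
  have hρm : ∀ (σ : GQ) (n : ℕ), (PadicInt.toZModPow n).mapMatrix (ρh σ) = rhoN a e act n σ :=
    hmap
  -- the Hecke matrices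
  let good : ℕ → Prop := fun ℓ => ℓ.Prime ∧ ¬ ℓ ∣ N ∧ ℓ ≠ p
  let t : ℕ → Matrix (Fin r) (Fin r) ℤ := fun ℓ => if good ℓ then tmat a e τ ℓ else 0
  have ht : ∀ ℓ, good ℓ → t ℓ = tmat a e τ ℓ := fun ℓ h => if_pos h
  have ht0 : ∀ ℓ, ¬ good ℓ → t ℓ = 0 := fun ℓ h => if_neg h
  have hTm : ∀ (M : Matrix (Fin r) (Fin r) ℤ) (n : ℕ),
      (PadicInt.toZModPow n).mapMatrix (M.map (Int.castRingHom ℤ_[p])) =
        M.map (Int.castRingHom (ZMod (p ^ n))) := by
    intro M n
    ext i j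
    simp
  refine ⟨{ r := r, t := t, ρ := ρh, t_comm := ?_, ρ_comm := ?_, cont := ?_, unr := ?_,
            es := ?_, occ := ?_ }, ?_⟩
  · -- t_comm
    intro ℓ ℓ'
    by_cases h : good ℓ
    · by_cases h' : good ℓ'
      · rw [ht ℓ h, ht ℓ' h']
        exact tmat_comm a e hexp τ ℓ ℓ' (hτ ℓ ℓ' h.1 h.2.1 h.2.2 h'.1 h'.2.1 h'.2.2)
      · rw [ht0 ℓ' h']
        exact Commute.zero_right _
    · rw [ht0 ℓ h]
      exact Commute.zero_left _
  · -- ρ_comm
    intro σ ℓ
    by_cases h : good ℓ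
    · rw [ht ℓ h]
      show ρh σ * _ = _ * ρh σ
      refine padic_matrix_ext fun n => ?_
      rw [map_mul, map_mul, hρm, hTm]
      exact (rhoN_comm a e act hexp act_red τ n σ ℓ (act_τ n σ ℓ h.1 h.2.1 h.2.2)).eq
    · rw [ht0 ℓ h]
      have : (0 : Matrix (Fin r) (Fin r) ℤ).map (Int.castRingHom ℤ_[p]) = 0 := by
        ext i j
        simp
      rw [this]
      exact Commute.zero_right _
  · -- cont
    intro n
    obtain ⟨L, hL, h⟩ := cont n
    refine ⟨L, hL, fun σ hσ i j => ?_⟩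
    rw [← PadicInt.ker_toZModPow, RingHom.mem_ker]
    have h1 : (PadicInt.toZModPow n).mapMatrix (ρh σ - 1) = 0 := by
      rw [map_sub, hρm, rhoN_eq_one_of_act a e act he n σ (h σ hσ), map_one, sub_self]
    exact congrFun (congrFun h1 i) j
  · -- unr
    intro q hq hqN hqp P hP σ hσ
    refine padic_matrix_ext fun n => ?_
    rw [hρm, map_one]
    exact rhoN_eq_one_of_act a e act he n σ (unr n q hq hqN hqp P hP σ hσ)
  · -- es
    intro ℓ hℓ hℓN hℓp A' hA' σ hσ
    rw [ht ℓ ⟨hℓ, hℓN, hℓp⟩]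
    refine padic_matrix_ext fun n => ?_
    rw [map_zero, map_add, map_sub, map_mul, map_mul, hρm, hTm, map_natCast]
    exact rhoN_es a e act hexp act_red he τ n σ ℓ (es n ℓ hℓ hℓN hℓp A' hA' σ hσ)
  · -- occ
    obtain ⟨P, hadd, hinj, hT⟩ := occ
    have hP : ∀ (f : CuspForm (CongruenceSubgroup.Gamma0 N) 2) (x : A),
        P f x = ∑ i, e i x • P f (a i) := fun f x =>
      hexp ℂ (AddMonoidHom.mk' (P f) (hadd f)) x
    refine ⟨LinearMap.pi fun i => (LinearMap.proj (a i)).comp P, ?_, ?_⟩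
    · intro f g hfg
      apply hinj
      funext x
      rw [hP f x, hP g x]
      refine Finset.sum_congr rfl fun i _ => ?_
      have := congrFun hfg i
      simp only [LinearMap.pi_apply, LinearMap.coe_comp, Function.comp_apply,
        LinearMap.proj_apply] at this
      rw [this]
    · intro ℓ hℓ hℓN hℓp f
      rw [ht ℓ ⟨hℓ, hℓN, hℓp⟩]
      funext k
      simp only [LinearMap.pi_apply, LinearMap.coe_comp, Function.comp_apply,
        LinearMap.proj_apply, Matrix.mulVec, dotProduct, Matrix.map_apply, Int.coe_castRingHom]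
      rw [hT ℓ hℓ hℓN hℓp f (a k), hP f (τ ℓ (a k))]
      refine Finset.sum_congr rfl fun i _ => ?_
      rw [zsmul_eq_mul, tmat_apply]
  · -- the link
    intro n
    refine ⟨jn e n, jn_injective a e he n, fun σ v => ?_⟩
    have h1 : (ρh σ).map (PadicInt.toZModPow n) = rhoN a e act n σ := hρm σ n
    show jn e n ((ρh σ).map (PadicInt.toZModPow n) *ᵥ v) = act n σ (jn e n v)
    rw [h1]
    exact jn_act a e act hexp act_red n σ v

end Assembly

end Fermat.Agent.S32.Link
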