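/-
S32, base case (L2) of the transfer chain (helper190; plan of helper246, note
`S32_transfer.md` §3).

For a Kummer system `K` of level `N` at `p` (the relational interface of the S30 producer,
`S30.Producer.KummerSystem`) whose Kummer functions have divisors divisible by `p ^ n`, the
character group `Hom(K.A, ℤ/p^n)` embeds into the `p ^ n`-torsion of `J₀(N)(ℚ̄)`:

  `c ↦ [div f / p ^ n]`   for any Kummer function `f` with character `c`,

additively, injectively and equivariantly for `Gal(ℚ̄/ℚ)` (`K.act` on characters, the frozen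
action on `JZero N`).  Together with (L1) (`Link/KummerTwin.lean`, helper246) this gives the base
case of S32:
the reductions modulo `p ^ n` of the Eichler–Shimura lattice are Galois-submodules of
`J₀(N)[p ^ n]`.

* `exists_div_of_dvd`   : a function whose orders are divisible by `m` has a degree-zero
                          divisor `D` with `m • D = div f` (level-free);
* `kummer_exists_torsion_embed` : (L2);
* `kummer_exists_esData_torsion_embed` : (L1) + (L2) = the base case for an abstract `K`.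

The two hypotheses `hdiv`, `hconst` and the instance `HasPrincipalDivisors` are landed facts for
the concrete system of the producer (`Link/Base.lean`).
-/
import Mathlib
import Fermat.Agent.S30.Producer.ToESData
import Fermat.Agent.S19.TorsionRep
import Fermat.Agent.S19.HopfOrder.Frozen
import Fermat.Agent.S32.Link.KummerTwin

set_option autoImplicit false
set_option linter.unusedSectionVars false

noncomputable section

namespace Fermat.Agent.S32.Link.KummerTors

open AlgebraicCurve ModularCurve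
open Fermat.Agent.S30 Fermat.Agent.S30.Producer
open Fermat.Agent.S19.HopfOrder (torsAct)

/-! ### Dividing a principal divisor -/

section Div

variable {K F : Type*} [Field K] [Field F] [Algebra K F]

/-- A function all of whose orders are divisible by `m ≠ 0` has a degree-zero divisor `D` with
`m • D = div f`. -/
theorem exists_div_of_dvd [HasPrincipalDivisors K F] {m : ℤ} (hm : m ≠ 0) {f : F} (hf : f ≠ 0)
    (hdvd : ∀ v : Place K F, m ∣ v.ord f) :
    ∃ D : Divisor.degZero (K := K) (F := F),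
      ∀ v : Place K F, m * (D : Divisor K F) v = v.ord f := by
  obtain ⟨E, hE, hdeg⟩ := HasPrincipalDivisors.exists_divisor (K := K) f hf
  let D0 : Divisor K F := E.mapRange (fun z => z / m) (by simp)
  have hD0 : ∀ v : Place K F, m * D0 v = v.ord f := by
    intro v
    have h1 : D0 v = E v / m := Finsupp.mapRange_apply (hf := by simp) (g := E) (a := v)
    rw [h1, hE v]
    exact Int.mul_ediv_cancel' (hdvd v)
  have hsm : m • D0 = E := by
    ext v
    rw [Finsupp.smul_apply, smul_eq_mul, hD0 v, hE v]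
  have hdeg0 : Divisor.degree D0 = 0 := by
    have h2 : m * Divisor.degree D0 = 0 := by
      rw [← smul_eq_mul, ← map_zsmul, hsm, hdeg]
    exact (mul_eq_zero.mp h2).resolve_left hm
  exact ⟨⟨D0, Divisor.mem_degZero.mpr hdeg0⟩, hD0⟩

end Div

/-! ### The class of a character -/

section Tors

variable {N p : ℕ} [NeZero N] [hp : Fact p.Prime] (K : KummerSystem N p)
  [HasPrincipalDivisors Qb (FN N)]
  (hdiv : ∀ (n : ℕ) (f : FN N) (c : K.A →+ ZMod (p ^ n)), K.R n f c →
    ∀ v : Place Qb (FN N), (p : ℤ) ^ n ∣ v.ord f)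

omit [NeZero N] in
theorem pow_ne_zero_int (n : ℕ) : (p : ℤ) ^ n ≠ 0 :=
  pow_ne_zero n (by exact_mod_cast hp.out.ne_zero)

include hdiv

/-- Data of a character: a Kummer function and a degree-zero divisor `D` with
`p ^ n • D = div f`. -/
theorem exists_data (n : ℕ) (c : K.A →+ ZMod (p ^ n)) :
    ∃ (f : FN N) (D : Divisor.degZero (K := Qb) (F := FN N)), K.R n f c ∧
      ∀ v : Place Qb (FN N), (p : ℤ) ^ n * (D : Divisor Qb (FN N)) v = v.ord f := by
  obtain ⟨f, hf⟩ := K.ex n c
  obtain ⟨D, hD⟩ := exists_div_of_dvd (K := Qb) (pow_ne_zero_int n) (K.ne_zero hf)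
    (hdiv n f c hf)
  exact ⟨f, D, hf, hD⟩

/-- The class `[div f / p ^ n]` of a character `c` (for a chosen Kummer function `f`). -/
def kClass (n : ℕ) (c : K.A →+ ZMod (p ^ n)) : JZero N :=
  Pic0.mk (Classical.choose (Classical.choose_spec (exists_data K hdiv n c)))

/-- The class does not depend on the choices. -/
theorem kClass_eq {n : ℕ} {c : K.A →+ ZMod (p ^ n)} {f : FN N}
    {D : Divisor.degZero (K := Qb) (F := FN N)} (hf : K.R n f c)
    (hD : ∀ v : Place Qb (FN N), (p : ℤ) ^ n * (D : Divisor Qb (FN N)) v = v.ord f) :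
    kClass K hdiv n c = Pic0.mk D := by
  obtain ⟨hf₀, hD₀⟩ := Classical.choose_spec (Classical.choose_spec (exists_data K hdiv n c))
  set f₀ := Classical.choose (exists_data K hdiv n c)
  set D₀ := Classical.choose (Classical.choose_spec (exists_data K hdiv n c))
  show Pic0.mk D₀ = Pic0.mk D
  obtain ⟨h, hh0, hh⟩ := K.exists_eq_mul_pow hf₀ hf
  symm
  refine (Fermat.Agent.S19.TorsionRep.mk_eq_mk_iff D D₀).mpr ⟨h, hh0, fun v => ?_⟩
  have hf₀0 : f₀ ≠ 0 := K.ne_zero hf₀
  have h1 : v.ord f = v.ord f₀ + (p : ℤ) ^ n * v.ord h := by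
    rw [hh, v.ord_mul hf₀0 (pow_ne_zero _ hh0), Fermat.Agent.S19.TorsionRep.ord_npow',
      Nat.cast_pow]
  apply mul_left_cancel₀ (pow_ne_zero_int (p := p) n)
  rw [mul_sub, hD v, hD₀ v, h1]
  ring

/-- The class of a character is `p ^ n`-torsion. -/
theorem kClass_mem (n : ℕ) (c : K.A →+ ZMod (p ^ n)) :
    kClass K hdiv n c ∈ Submodule.torsionBy ℤ (JZero N) ((p : ℤ) ^ n) := by
  obtain ⟨f, D, hf, hD⟩ := exists_data K hdiv n c
  rw [kClass_eq K hdiv hf hD, Submodule.mem_torsionBy_iff]
  exact (Fermat.Agent.S19.TorsionRep.zsmul_mk_eq_zero_iff ((p : ℤ) ^ n) D).mpr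
    ⟨f, K.ne_zero hf, hD⟩

theorem kClass_add (n : ℕ) (c d : K.A →+ ZMod (p ^ n)) :
    kClass K hdiv n (c + d) = kClass K hdiv n c + kClass K hdiv n d := by
  obtain ⟨f, D, hf, hD⟩ := exists_data K hdiv n c
  obtain ⟨g, E, hg, hE⟩ := exists_data K hdiv n d
  have hsum : ∀ v : Place Qb (FN N),
      (p : ℤ) ^ n * ((D + E : Divisor.degZero (K := Qb) (F := FN N)) : Divisor Qb (FN N)) v =
        v.ord (f * g) := by
    intro v
    rw [AddSubgroup.coe_add, Finsupp.add_apply, mul_add, hD v, hE v,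
      v.ord_mul (K.ne_zero hf) (K.ne_zero hg)]
  rw [kClass_eq K hdiv (K.mul hf hg) hsum, kClass_eq K hdiv hf hD, kClass_eq K hdiv hg hE,
    Pic0.mk_add]

/-- Injectivity: a character whose class is trivial is trivial. -/
theorem eq_zero_of_kClass_eq_zero
    (hconst : ∀ u : FN N, (∀ v : Place Qb (FN N), v.ord u = 0) →
      ∃ a : Qb, algebraMap Qb (FN N) a = u)
    {n : ℕ} {c : K.A →+ ZMod (p ^ n)} (h : kClass K hdiv n c = 0) : c = 0 := by
  obtain ⟨f, D, hf, hD⟩ := exists_data K hdiv n c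
  rw [kClass_eq K hdiv hf hD] at h
  obtain ⟨y, hy0, hy⟩ := (Fermat.Agent.S19.TorsionRep.mk_eq_zero_iff D).mp h
  have hf0 : f ≠ 0 := K.ne_zero hf
  have hyp0 : y ^ (p ^ n) ≠ 0 := pow_ne_zero _ hy0
  -- `u = f / y ^ (p ^ n)` has trivial divisor
  have hu : ∀ v : Place Qb (FN N), v.ord (f * (y ^ (p ^ n))⁻¹) = 0 := by
    intro v
    rw [v.ord_mul hf0 (inv_ne_zero hyp0), v.ord_inv, Fermat.Agent.S19.TorsionRep.ord_npow',
      Nat.cast_pow, ← hD v, hy v]
    ring
  obtain ⟨a, ha⟩ := hconst _ hu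
  obtain ⟨b, hb⟩ := IsAlgClosed.exists_pow_nat_eq a (pow_pos hp.out.pos n)
  have hfe : f = (algebraMap Qb (FN N) b * y) ^ (p ^ n) := by
    rw [mul_pow, ← map_pow, hb, ha, mul_assoc, inv_mul_cancel₀ hyp0, mul_one]
  have hg0 : algebraMap Qb (FN N) b * y ≠ 0 := by
    intro h0
    rw [h0, zero_pow (pow_ne_zero n hp.out.ne_zero)] at hfe
    exact hf0 hfe
  have hR0 : K.R n f 0 := by
    rw [hfe]
    exact K.pow n hg0
  exact K.uniq hf hR0

/-- Equivariance: the class of `σ c` is `σ` applied to the class of `c`. -/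
theorem kClass_act (n : ℕ) (σ : GQ) (c : K.A →+ ZMod (p ^ n)) :
    kClass K hdiv n (K.act n σ c) = σ • kClass K hdiv n c := by
  obtain ⟨f, D, hf, hD⟩ := exists_data K hdiv n c
  let g : SemilinearAut Qb (FN N) := arithmeticGalois (modularFunctionFieldFull N) σ
  have hgf : ∀ x : FN N, g • x = galF N σ x := fun x => rfl
  have hD' : ∀ v : Place Qb (FN N),
      (p : ℤ) ^ n * ((SemilinearAut.degZeroSMulHom g D :
        Divisor.degZero (K := Qb) (F := FN N)) : Divisor Qb (FN N)) v =
        v.ord (galF N σ f) := by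
    intro v
    rw [SemilinearAut.coe_degZeroSMulHom, SemilinearAut.divisor_smul_apply, hD (g⁻¹ • v)]
    have h1 := SemilinearAut.ord_smul g (g⁻¹ • v) f
    rw [smul_inv_smul, hgf] at h1
    exact h1.symm
  rw [KummerSystem.act_apply, kClass_eq K hdiv (K.actFun_spec σ hf) hD',
    kClass_eq K hdiv hf hD]
  rfl

/-- **(L2).**  The character group `Hom(K.A, ℤ/p^n)` embeds Galois-equivariantly into the
`p ^ n`-torsion of `J₀(N)(ℚ̄)`. -/
theorem kummer_exists_torsion_embed
    (hconst : ∀ u : FN N, (∀ v : Place Qb (FN N), v.ord u = 0) →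
      ∃ a : Qb, algebraMap Qb (FN N) a = u) (n : ℕ) :
    ∃ ψ : (K.A →+ ZMod (p ^ n)) →+ ↥(Submodule.torsionBy ℤ (JZero N) ((p : ℤ) ^ n)),
      Function.Injective ψ ∧
        ∀ (σ : GQ) (c : K.A →+ ZMod (p ^ n)),
          ψ (K.act n σ c) = torsAct ((p : ℤ) ^ n) σ (ψ c) := by
  let ψ : (K.A →+ ZMod (p ^ n)) →+ ↥(Submodule.torsionBy ℤ (JZero N) ((p : ℤ) ^ n)) :=
    AddMonoidHom.mk' (fun c => ⟨kClass K hdiv n c, kClass_mem K hdiv n c⟩)
      (fun c d => Subtype.ext (kClass_add K hdiv n c d))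
  refine ⟨ψ, ?_, fun σ c => Subtype.ext (kClass_act K hdiv n σ c)⟩
  rw [injective_iff_map_eq_zero]
  intro c hc
  exact eq_zero_of_kClass_eq_zero K hdiv hconst (congrArg Subtype.val hc)

/-- **The base case of S32 for an abstract Kummer system**: Eichler–Shimura matrix data whose
lattice embeds, modulo every `p ^ n`, Galois-equivariantly into `J₀(N)[p ^ n]`. -/
theorem kummer_exists_esData_torsion_embed
    (hconst : ∀ u : FN N, (∀ v : Place Qb (FN N), v.ord u = 0) →
      ∃ a : Qb, algebraMap Qb (FN N) a = u) :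
    ∃ D : ESData N p, ∀ n : ℕ,
      ∃ φ : (Fin D.r → ZMod (p ^ n)) →+ ↥(Submodule.torsionBy ℤ (JZero N) ((p : ℤ) ^ n)),
        Function.Injective φ ∧
          ∀ (σ : GQ) (v : Fin D.r → ZMod (p ^ n)),
            φ (Matrix.mulVec ((D.ρ σ).map (PadicInt.toZModPow n)) v) =
              torsAct ((p : ℤ) ^ n) σ (φ v) := by
  obtain ⟨D, hD⟩ := exists_esData_link_kummer K
  refine ⟨D, fun n => ?_⟩
  obtain ⟨j, hj, hjσ⟩ := hD n
  obtain ⟨ψ, hψ, hψσ⟩ := kummer_exists_torsion_embed K hdiv hconst n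
  refine ⟨ψ.comp j, hψ.comp hj, fun σ v => ?_⟩
  rw [AddMonoidHom.comp_apply, hjσ, hψσ, AddMonoidHom.comp_apply]

end Tors

end Fermat.Agent.S32.Link.KummerTors

end
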