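/-
S32, base case (L3) of the transfer chain (helper190 text; compiled + landed by helper13):
the concrete Kummer system of the S30 producer satisfies the hypotheses of
`Link/KummerTors.kummer_exists_esData_torsion_embed`.

  `exists_esData_torsion_embed` : there are Eichler–Shimura matrix data `D : S30.ESData N p`
  such that for every `n` the reduction `(ℤ/p^n)^r` of the lattice (Galois acting through
  `D.ρ σ mod p ^ n`) embeds additively, injectively and `Gal(ℚ̄/ℚ)`-equivariantly into the frozen
  carrier `J₀(N)[p ^ n] = ↥(Submodule.torsionBy ℤ (JZero N) (p ^ n))` of S19.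

Inputs (all landed): `Producer.Assembly.kummerSystem` with the bricks `SurjXRoot.surj`,
`bricks_k1`; the component `E4.DivBy` of `Producer.KRel`; `HeckeInputs.hasPrincipalDivisors_bar`;
`S19.LevelInj.exists_const_of_ord_eq_zero` with `HeckeInputs.trdeg_bar`.
-/
import Mathlib
import Fermat.Agent.S30.Producer.Final
import Fermat.Agent.S19.LevelInj.PullPic
import Fermat.Agent.S32.Link.KummerTors

set_option autoImplicit false

namespace Fermat.Agent.S32.Link.Base

open AlgebraicCurve ModularCurve
open Fermat.Agent.S30 Fermat.Agent.S30.Producer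
open Fermat.Agent.S19.HopfOrder (torsAct)

/-- **The base case of S32**: the reductions modulo `p ^ n` of the Eichler–Shimura lattice of the
S30 producer are Galois-submodules of `J₀(N)[p ^ n]`. -/
theorem exists_esData_torsion_embed (N p : ℕ) [NeZero N] [Fact p.Prime] :
    ∃ D : ESData N p, ∀ n : ℕ,
      ∃ φ : (Fin D.r → ZMod (p ^ n)) →+ ↥(Submodule.torsionBy ℤ (JZero N) ((p : ℤ) ^ n)),
        Function.Injective φ ∧
          ∀ (σ : GQ) (v : Fin D.r → ZMod (p ^ n)),
            φ (Matrix.mulVec ((D.ρ σ).map (PadicInt.toZModPow n)) v) =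
              torsAct ((p : ℤ) ^ n) σ (φ v) := by
  haveI : HasPrincipalDivisors Qb (FN N) := HeckeInputs.hasPrincipalDivisors_bar N
  refine KummerTors.kummer_exists_esData_torsion_embed
    (Assembly.kummerSystem N p (SurjXRoot.surj N) (bricks_k1 N)) ?_ ?_
  · intro n f c h v
    obtain ⟨-, h2, -⟩ := h
    have h1 : ((p ^ n : ℕ) : ℤ) ∣ v.ord f := h2 v
    rwa [Nat.cast_pow] at h1
  · intro u hu
    exact Fermat.Agent.S19.LevelInj.exists_const_of_ord_eq_zero (HeckeInputs.trdeg_bar N) hu

end Fermat.Agent.S32.Link.Base
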