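/-
S32 producer link with level compatibility, Kummer-system form (helper246): for
`K : Producer.KummerSystem N p`, the `ESData` built from `K` together with ONE family of injective
equivariant maps `j n : (ℤ/pⁿ)^r →+ Hom(K.A, ℤ/pⁿ)`, compatible with the reduction maps.
(Strengthening of `exists_esData_link_kummer`, which states `∃ j` level by level; same proof, fed to
`exists_esData_link_compat`.)  Consumer: `S33/Lat/Inst`.
-/
import Mathlib
import Fermat.Agent.S30.Producer.ToESData
import Fermat.Agent.S32.Link.BettiCompat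

set_option autoImplicit false

namespace Fermat.Agent.S32.Link

open ModularCurve Fermat.Agent.S30 Fermat.Agent.S30.Producer
  Fermat.Agent.S30.Producer.KummerSystem Matrix

variable {N p : ℕ} [NeZero N] [hp : Fact p.Prime]

/-- **(L1) for a Kummer system, with level compatibility.** -/
theorem exists_esData_link_kummer_compat (K : KummerSystem N p) :
    ∃ (D : ESData N p) (j : ∀ n : ℕ, (Fin D.r → ZMod (p ^ n)) →+ (K.A →+ ZMod (p ^ n))),
      (∀ n, Function.Injective (j n)) ∧
      (∀ (n : ℕ) (σ : GQ) (v : Fin D.r → ZMod (p ^ n)),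
        j n ((D.ρ σ).map (PadicInt.toZModPow n) *ᵥ v) = K.act n σ (j n v)) ∧
      ∀ (n : ℕ) (v : Fin D.r → ZMod (p ^ (n + 1))),
        BettiLimit.red K.A p n (j (n + 1) v) =
          j n (fun i => ZMod.castHom (pow_dvd_pow p (Nat.le_succ n)) (ZMod (p ^ n)) (v i)) := by
  classical
  refine exists_esData_link_compat K.A K.fgA K.τ K.τ_comm K.act ?_ ?_ ?_ ?_ ?_ K.occ
  · -- act_red
    intro n σ c
    obtain ⟨f, hf⟩ := K.ex (n + 1) c
    rw [act_apply, act_apply]
    exact K.actFun_eq σ (K.red hf) (K.red (K.actFun_spec σ hf))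
  · -- act_τ
    intro n σ ℓ hℓ hℓN hℓp c
    obtain ⟨f, hf⟩ := K.ex n c
    have hrel : Relevant N p ℓ := ⟨hℓ, hℓN, hℓp⟩
    rw [act_apply, act_apply]
    refine K.actFun_eq σ (K.hecke hrel hf) ?_
    rw [← K.hecke_gal hrel σ hf]
    exact K.hecke hrel (K.actFun_spec σ hf)
  · -- cont
    intro n
    have := K.finite_hom n
    choose f hf using K.ex n
    choose L hLfin hL using fun c => K.cont (f c)
    have : ∀ c, FiniteDimensional ℚ (L c) := hLfin
    refine ⟨⨆ c, L c, IntermediateField.finiteDimensional_iSup_of_finite, fun σ hσ => ?_⟩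
    ext1 c
    show K.actFun n σ c = c
    refine K.actFun_eq σ (hf c) ?_
    rw [hL c σ (fun x hx => hσ x (le_iSup L c hx))]
    exact hf c
  · -- unr
    intro n q hq hqN hqp P hP σ hσ
    ext1 c
    show K.actFun n σ c = c
    obtain ⟨f, hf⟩ := K.ex n c
    obtain ⟨g, hg⟩ := K.unr q hq hqN hqp P hP σ hσ hf
    refine K.actFun_eq σ hf ?_
    rw [hg]
    refine K.R_mul_pow hf ?_
    intro g0
    rw [g0, zero_pow (pow_ne_zero n hp.out.ne_zero), mul_zero] at hg
    exact galF_ne_zero σ (K.ne_zero hf) hg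
  · -- es
    intro n ℓ hℓ hℓN hℓp B hB σ hσ c
    obtain ⟨f, hf⟩ := K.ex n c
    have hrel : Relevant N p ℓ := ⟨hℓ, hℓN, hℓp⟩
    obtain ⟨g, hg⟩ := K.es ℓ hrel B hB σ hσ hf
    have h1 := K.actFun_spec σ hf
    have h2 := K.actFun_spec σ h1
    have hL := K.mul h2 (K.R_pow hf ℓ)
    have hT := K.hecke hrel h1
    have hg0 : g ≠ 0 := by
      intro g0
      rw [g0, zero_pow (pow_ne_zero n hp.out.ne_zero), mul_zero] at hg
      exact K.ne_zero hL hg
    rw [hg] at hL
    have hR := K.R_mul_pow hT hg0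
    have := K.uniq hL hR
    rw [act_apply, act_apply, ← this]
    abel

end Fermat.Agent.S32.Link
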